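/-
S52 / B1 (helper170): the LINE FAMILY over `ℚ[s]` joining two integral models `W` (at `s = 0`) and
`W'` (at `s = 1`) inside the 5-congruent family:

  `a₁, a₂, a₃` interpolated linearly,  `c₄(s) = C4h c₄ c₆ (M s) (1 + (n-1) s)`,  `c₆(s)` likewise,
  `a₄(s), a₆(s)` determined by `(a₁, a₂, a₃, c₄, c₆)(s)`.

If `c₄(W') = C4h c₄(W) c₆(W) M n` and `c₆(W') = C6h …` then the fibres are exactly `W_ℚ` and `W'_ℚ`.
-/
import Mathlib
import Fermat.Agent.S52.B.Hom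

set_option autoImplicit false
set_option linter.unusedSimpArgs false

namespace Fermat.Agent.S52.B.B1.H170

open Polynomial Fermat.Agent.S52.B

/-- the numerator parameter `m(s) = M s`. -/
noncomputable def mP {k : Type*} [Field k] (M : k) : k[X] := C M * X

/-- the denominator parameter `n(s) = 1 + (n - 1) s`. -/
noncomputable def nP {k : Type*} [Field k] (n : k) : k[X] := 1 + C (n - 1) * X

lemma nP_ne_zero {k : Type*} [Field k] (n : k) : nP n ≠ 0 := by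
  intro h
  have := congrArg (Polynomial.eval 0) h
  simp [nP] at this

@[simp] lemma mP_eval_zero {k : Type*} [Field k] (M : k) : (mP M).eval 0 = 0 := by simp [mP]
@[simp] lemma nP_eval_zero {k : Type*} [Field k] (n : k) : (nP n).eval 0 = 1 := by simp [nP]
@[simp] lemma mP_eval_one {k : Type*} [Field k] (M : k) : (mP M).eval 1 = M := by simp [mP]
@[simp] lemma nP_eval_one {k : Type*} [Field k] (n : k) : (nP n).eval 1 = n := by simp [nP]

lemma map_mP {k K : Type*} [Field k] [Field K] (f : k →+* K) (M : k) :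
    (mP M).map f = mP (f M) := by simp [mP]

lemma map_nP {k K : Type*} [Field k] [Field K] (f : k →+* K) (n : k) :
    (nP n).map f = nP (f n) := by simp [nP]

/-- data of the line family. -/
structure LineData where
  a₁ : ℚ
  a₂ : ℚ
  a₃ : ℚ
  a₁' : ℚ
  a₂' : ℚ
  a₃' : ℚ
  c₄ : ℚ
  c₆ : ℚ
  M : ℚ
  n : ℚ

namespace LineData

variable (d : LineData)

noncomputable def A1 : ℚ[X] := C d.a₁ + C (d.a₁' - d.a₁) * X
noncomputable def A2 : ℚ[X] := C d.a₂ + C (d.a₂' - d.a₂) * X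
noncomputable def A3 : ℚ[X] := C d.a₃ + C (d.a₃' - d.a₃) * X
noncomputable def c4P : ℚ[X] := C4h (C d.c₄) (C d.c₆) (mP d.M) (nP d.n)
noncomputable def c6P : ℚ[X] := C6h (C d.c₄) (C d.c₆) (mP d.M) (nP d.n)
noncomputable def b2P : ℚ[X] := d.A1 ^ 2 + 4 * d.A2
noncomputable def b4P : ℚ[X] := C (1 / 24) * (d.b2P ^ 2 - d.c4P)
noncomputable def A4 : ℚ[X] := C (1 / 2) * (d.b4P - d.A1 * d.A3)
noncomputable def b6P : ℚ[X] := C (1 / 216) * (-d.b2P ^ 3 + 36 * d.b2P * d.b4P - d.c6P)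
noncomputable def A6 : ℚ[X] := C (1 / 4) * (d.b6P - d.A3 ^ 2)

/-- **the line family**. -/
noncomputable def fam : WeierstrassCurve ℚ[X] := ⟨d.A1, d.A2, d.A3, d.A4, d.A6⟩

lemma hC2 : (C (1 / 2 : ℚ) : ℚ[X]) * 2 = 1 := by
  rw [← map_ofNat (C : ℚ →+* ℚ[X]) 2, ← C_mul]; norm_num

lemma hC4 : (C (1 / 4 : ℚ) : ℚ[X]) * 4 = 1 := by
  rw [← map_ofNat (C : ℚ →+* ℚ[X]) 4, ← C_mul]; norm_num

lemma hC24 : (C (1 / 24 : ℚ) : ℚ[X]) * 24 = 1 := by
  rw [← map_ofNat (C : ℚ →+* ℚ[X]) 24, ← C_mul]; norm_num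

lemma hC216 : (C (1 / 216 : ℚ) : ℚ[X]) * 216 = 1 := by
  rw [← map_ofNat (C : ℚ →+* ℚ[X]) 216, ← C_mul]; norm_num

@[simp] lemma fam_a₁ : d.fam.a₁ = d.A1 := rfl
@[simp] lemma fam_a₂ : d.fam.a₂ = d.A2 := rfl
@[simp] lemma fam_a₃ : d.fam.a₃ = d.A3 := rfl
@[simp] lemma fam_a₄ : d.fam.a₄ = d.A4 := rfl
@[simp] lemma fam_a₆ : d.fam.a₆ = d.A6 := rfl

lemma fam_b₂ : d.fam.b₂ = d.b2P := by
  rw [WeierstrassCurve.b₂, fam_a₁, fam_a₂, b2P]

lemma fam_b₄ : d.fam.b₄ = d.b4P := by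
  have h2 := hC2
  rw [WeierstrassCurve.b₄, fam_a₁, fam_a₃, fam_a₄, A4]
  generalize d.b4P = p at *
  generalize d.A1 = q at *
  generalize d.A3 = r at *
  generalize (C (1 / 2 : ℚ) : ℚ[X]) = α at *
  linear_combination (p - q * r) * h2

lemma fam_b₆ : d.fam.b₆ = d.b6P := by
  have h4 := hC4
  rw [WeierstrassCurve.b₆, fam_a₃, fam_a₆, A6]
  generalize d.b6P = p at *
  generalize d.A3 = r at *
  generalize (C (1 / 4 : ℚ) : ℚ[X]) = α at *
  linear_combination (p - r ^ 2) * h4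

lemma fam_c₄ : d.fam.c₄ = d.c4P := by
  have h24 := hC24
  rw [WeierstrassCurve.c₄, fam_b₂, fam_b₄, b4P]
  generalize d.b2P = p at *
  generalize d.c4P = q at *
  generalize (C (1 / 24 : ℚ) : ℚ[X]) = α at *
  linear_combination (-(p ^ 2 - q)) * h24

lemma fam_c₆ : d.fam.c₆ = d.c6P := by
  have h216 := hC216
  rw [WeierstrassCurve.c₆, fam_b₂, fam_b₄, fam_b₆, b6P]
  generalize d.b2P = p at *
  generalize d.b4P = q at *
  generalize d.c6P = r at *
  generalize (C (1 / 216 : ℚ) : ℚ[X]) = α at *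
  linear_combination (-(-p ^ 3 + 36 * p * q - r)) * h216

lemma eval_c4P (a : ℚ) : d.c4P.eval a = C4h d.c₄ d.c₆ ((mP d.M).eval a) ((nP d.n).eval a) := by
  have := map_C4h (Polynomial.evalRingHom a) (C d.c₄) (C d.c₆) (mP d.M) (nP d.n)
  simpa [c4P] using this

lemma eval_c6P (a : ℚ) : d.c6P.eval a = C6h d.c₄ d.c₆ ((mP d.M).eval a) ((nP d.n).eval a) := by
  have := map_C6h (Polynomial.evalRingHom a) (C d.c₄) (C d.c₆) (mP d.M) (nP d.n)
  simpa [c6P] using this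

/-- a Weierstrass curve over `ℚ` is determined by `a₁, a₂, a₃, c₄, c₆`. -/
lemma ext_of_c₄_c₆ {E E' : WeierstrassCurve ℚ} (h1 : E.a₁ = E'.a₁) (h2 : E.a₂ = E'.a₂)
    (h3 : E.a₃ = E'.a₃) (h4 : E.c₄ = E'.c₄) (h6 : E.c₆ = E'.c₆) : E = E' := by
  have hb2 : E.b₂ = E'.b₂ := by simp only [WeierstrassCurve.b₂, h1, h2]
  have hb4 : E.b₄ = E'.b₄ := by
    simp only [WeierstrassCurve.c₄, hb2] at h4
    linarith
  have ha4 : E.a₄ = E'.a₄ := by
    simp only [WeierstrassCurve.b₄, h1, h3] at hb4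
    linarith
  have hb6 : E.b₆ = E'.b₆ := by
    simp only [WeierstrassCurve.c₆, hb2, hb4] at h6
    linarith
  have ha6 : E.a₆ = E'.a₆ := by
    simp only [WeierstrassCurve.b₆, h3] at hb6
    linarith
  exact WeierstrassCurve.ext h1 h2 h3 ha4 ha6

lemma fibre_eq (a : ℚ) (E : WeierstrassCurve ℚ)
    (h1 : d.A1.eval a = E.a₁) (h2 : d.A2.eval a = E.a₂) (h3 : d.A3.eval a = E.a₃)
    (h4 : C4h d.c₄ d.c₆ ((mP d.M).eval a) ((nP d.n).eval a) = E.c₄)
    (h6 : C6h d.c₄ d.c₆ ((mP d.M).eval a) ((nP d.n).eval a) = E.c₆) :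
    d.fam.map (Polynomial.evalRingHom a) = E := by
  apply ext_of_c₄_c₆
  · exact h1
  · exact h2
  · exact h3
  · rw [WeierstrassCurve.map_c₄, fam_c₄, ← h4, ← eval_c4P]; rfl
  · rw [WeierstrassCurve.map_c₆, fam_c₆, ← h6, ← eval_c6P]; rfl

end LineData

/-- the line data attached to two integral models and `M, n`. -/
noncomputable def lineData (W W' : WeierstrassCurve ℤ) (M n : ℤ) : LineData where
  a₁ := W.a₁
  a₂ := W.a₂
  a₃ := W.a₃
  a₁' := W'.a₁
  a₂' := W'.a₂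
  a₃' := W'.a₃
  c₄ := W.c₄
  c₆ := W.c₆
  M := M
  n := n

theorem lineData_fibre_zero (W W' : WeierstrassCurve ℤ) (M n : ℤ) :
    (lineData W W' M n).fam.map (Polynomial.evalRingHom 0) = W.map (Int.castRingHom ℚ) := by
  apply LineData.fibre_eq
  · simp [LineData.A1, lineData]
  · simp [LineData.A2, lineData]
  · simp [LineData.A3, lineData]
  · rw [mP_eval_zero, nP_eval_zero, C4h_zero_left, WeierstrassCurve.map_c₄]
    simp [lineData]
  · rw [mP_eval_zero, nP_eval_zero, C6h_zero_left, WeierstrassCurve.map_c₆]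
    simp [lineData]

theorem lineData_fibre_one (W W' : WeierstrassCurve ℤ) (M n : ℤ)
    (hc4 : W'.c₄ = C4h W.c₄ W.c₆ M n) (hc6 : W'.c₆ = C6h W.c₄ W.c₆ M n) :
    (lineData W W' M n).fam.map (Polynomial.evalRingHom 1) = W'.map (Int.castRingHom ℚ) := by
  apply LineData.fibre_eq
  · simp [LineData.A1, lineData]
  · simp [LineData.A2, lineData]
  · simp [LineData.A3, lineData]
  · rw [mP_eval_one, nP_eval_one, WeierstrassCurve.map_c₄, hc4, map_C4h]
    simp [lineData]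
  · rw [mP_eval_one, nP_eval_one, WeierstrassCurve.map_c₆, hc6, map_C6h]
    simp [lineData]

end Fermat.Agent.S52.B.B1.H170
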