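/-
S52 / B1 (helper170): homogenised Tate sections and the HOMOGENISED family identities

  `C4h (u⁴·tc4 c) (u⁶·tc6 c) m n = u⁴ · C4hom (c·q5h c (u²m) n) (q5h' c (u²m) n)`   (any comm. ring),

same for `C6h`; derived from helper952's `(I1)`, `(I2)` (`Fam/Ident.lean`).
-/
import Mathlib
import Fermat.Agent.S52.Fam.Ident
import Fermat.Agent.S52.B.Hom

set_option autoImplicit false
set_option linter.unusedSimpArgs false

namespace Fermat.Agent.S52.B.B1.H170

open Fermat.Agent.S52.Fam Fermat.Agent.S52.B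

variable {R : Type*} [CommRing R]

/-- `n⁵ · q5 c (m/n)`. -/
def q5h (c m n : R) : R :=
  q5_0 c * n^5
  + q5_1 c * m * n^4
  + q5_2 c * m^2 * n^3
  + q5_3 c * m^3 * n^2
  + q5_4 c * m^4 * n
  + q5_5 c * m^5

/-- `n⁵ · q5' c (m/n)`. -/
def q5h' (c m n : R) : R :=
  q5'_0 c * n^5
  + q5'_1 c * m * n^4
  + q5'_2 c * m^2 * n^3
  + q5'_3 c * m^3 * n^2
  + q5'_4 c * m^4 * n
  + q5'_5 c * m^5

theorem q5h_zero_one (c : R) : q5h c 0 1 = 1 := by
  simp only [q5h, q5_0]; ring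

theorem q5h'_zero_one (c : R) : q5h' c 0 1 = 1 := by
  simp only [q5h', q5'_0]; ring

section Maps

variable {S : Type*} [CommRing S] (f : R →+* S)

theorem map_q5h (c m n : R) : f (q5h c m n) = q5h (f c) (f m) (f n) := by
  simp only [q5h, q5_0, q5_1, q5_2, q5_3, q5_4, q5_5, map_add, map_sub, map_mul, map_pow, map_neg, map_ofNat, map_one]

theorem map_q5h' (c m n : R) : f (q5h' c m n) = q5h' (f c) (f m) (f n) := by
  simp only [q5h', q5'_0, q5'_1, q5'_2, q5'_3, q5'_4, q5'_5, map_add, map_sub, map_mul, map_pow, map_neg, map_ofNat,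
    map_one]

theorem map_tc4 (c : R) : f (tc4 c) = tc4 (f c) := by
  simp only [tc4, map_add, map_sub, map_mul, map_pow, map_neg, map_ofNat, map_one]

theorem map_tc6 (c : R) : f (tc6 c) = tc6 (f c) := by
  simp only [tc6, map_add, map_sub, map_mul, map_pow, map_neg, map_ofNat, map_one]

theorem map_C4hom (x z : R) : f (C4hom x z) = C4hom (f x) (f z) := by
  simp only [C4hom, map_add, map_sub, map_mul, map_pow, map_neg, map_ofNat, map_one]

theorem map_C6hom (x z : R) : f (C6hom x z) = C6hom (f x) (f z) := by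
  simp only [C6hom, map_add, map_sub, map_mul, map_pow, map_neg, map_ofNat, map_one]

end Maps

/-- weighted homogeneity of `C4` (weights `c₄ : 4`, `c₆ : 6`, `τ : -2`). -/
theorem C4_weight (u a b t : R) : C4 (u ^ 4 * a) (u ^ 6 * b) t = u ^ 4 * C4 a b (u ^ 2 * t) := by
  simp only [C4, C4_0, C4_1, C4_2, C4_3, C4_4, C4_5, C4_6, C4_7, C4_8, C4_9, C4_10, C4_11, C4_12, C4_13, C4_14, C4_15, C4_16, C4_17, C4_18, C4_19, C4_20]
  ring

/-- weighted homogeneity of `C6`. -/
theorem C6_weight (u a b t : R) : C6 (u ^ 4 * a) (u ^ 6 * b) t = u ^ 6 * C6 a b (u ^ 2 * t) := by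
  simp only [C6, C6_0, C6_1, C6_2, C6_3, C6_4, C6_5, C6_6, C6_7, C6_8, C6_9, C6_10, C6_11, C6_12, C6_13, C6_14, C6_15, C6_16, C6_17, C6_18, C6_19, C6_20, C6_21, C6_22, C6_23, C6_24, C6_25, C6_26, C6_27, C6_28, C6_29, C6_30]
  ring

theorem C4hom_smul (l x z : R) : C4hom (l * x) (l * z) = l ^ 4 * C4hom x z := by
  simp only [C4hom]; ring

theorem C6hom_smul (l x z : R) : C6hom (l * x) (l * z) = l ^ 6 * C6hom x z := by
  simp only [C6hom]; ring

section Field

variable {k : Type*} [Field k]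

theorem q5h_eq_pow_mul (c m : k) {n : k} (hn : n ≠ 0) : q5h c m n = n ^ 5 * q5 c (m / n) := by
  simp only [q5h, q5]; field_simp

theorem q5h'_eq_pow_mul (c m : k) {n : k} (hn : n ≠ 0) :
    q5h' c m n = n ^ 5 * q5' c (m / n) := by
  simp only [q5h', q5']; field_simp

theorem hI1_field (c u m : k) {n : k} (hn : n ≠ 0) :
    C4h (u ^ 4 * tc4 c) (u ^ 6 * tc6 c) m n =
      u ^ 4 * C4hom (c * q5h c (u ^ 2 * m) n) (q5h' c (u ^ 2 * m) n) := by
  rw [C4h_eq_pow_mul _ _ _ hn, C4_weight, C4_tate_one, q5h_eq_pow_mul _ _ hn,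
    q5h'_eq_pow_mul _ _ hn]
  have e : u ^ 2 * m / n = u ^ 2 * (m / n) := by ring
  rw [e, show c * (n ^ 5 * q5 c (u ^ 2 * (m / n))) = n ^ 5 * (c * q5 c (u ^ 2 * (m / n))) by ring,
    C4hom_smul]
  ring

theorem hI2_field (c u m : k) {n : k} (hn : n ≠ 0) :
    C6h (u ^ 4 * tc4 c) (u ^ 6 * tc6 c) m n =
      u ^ 6 * C6hom (c * q5h c (u ^ 2 * m) n) (q5h' c (u ^ 2 * m) n) := by
  rw [C6h_eq_pow_mul _ _ _ hn, C6_weight, C6_tate_one, q5h_eq_pow_mul _ _ hn,
    q5h'_eq_pow_mul _ _ hn]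
  have e : u ^ 2 * m / n = u ^ 2 * (m / n) := by ring
  rw [e, show c * (n ^ 5 * q5 c (u ^ 2 * (m / n))) = n ^ 5 * (c * q5 c (u ^ 2 * (m / n))) by ring,
    C6hom_smul]
  ring

end Field

section Domain

variable {D : Type*} [CommRing D] [IsDomain D]

theorem hI1_domain (c u m : D) {n : D} (hn : n ≠ 0) :
    C4h (u ^ 4 * tc4 c) (u ^ 6 * tc6 c) m n =
      u ^ 4 * C4hom (c * q5h c (u ^ 2 * m) n) (q5h' c (u ^ 2 * m) n) := by
  apply IsFractionRing.injective D (FractionRing D)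
  have hn' : algebraMap D (FractionRing D) n ≠ 0 := by
    intro h
    exact hn ((IsFractionRing.injective D (FractionRing D)) (h.trans (map_zero _).symm))
  simp only [map_C4h, map_mul, map_pow, map_tc4, map_tc6, map_C4hom, map_q5h, map_q5h']
  exact hI1_field _ _ _ hn'

theorem hI2_domain (c u m : D) {n : D} (hn : n ≠ 0) :
    C6h (u ^ 4 * tc4 c) (u ^ 6 * tc6 c) m n =
      u ^ 6 * C6hom (c * q5h c (u ^ 2 * m) n) (q5h' c (u ^ 2 * m) n) := by
  apply IsFractionRing.injective D (FractionRing D)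
  have hn' : algebraMap D (FractionRing D) n ≠ 0 := by
    intro h
    exact hn ((IsFractionRing.injective D (FractionRing D)) (h.trans (map_zero _).symm))
  simp only [map_C6h, map_mul, map_pow, map_tc4, map_tc6, map_C6hom, map_q5h, map_q5h']
  exact hI2_field _ _ _ hn'

end Domain

end Fermat.Agent.S52.B.B1.H170
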