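/-
S52 / piece B1 (helper170): **`torsionMap : TorsionMap`** (frozen interface `B/Interfaces.lean`).

Assembly:
* line family over `ℚ[s]` joining `W` and `W'` (`Family.lean`);
* 5-torsion lifts by helper890's `exists_lift_of_identities` (Tate normal form, helper410) fed with
  the homogenised family identities (`HomTate.lean`, from helper952's `(I1)`, `(I2)`);
* rigidity (`S52/H170/Five.lean`: `fiveCongruent_of_family_rat`; reduction at `s = 0` and `s = 1`
  of the function field `ℚ̄(s)`, landed `Lib.Red.goodReduction` + landed S05 C1).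
The auxiliary prime `p₀` of the interface is not used.
-/
import Mathlib
import Fermat.Agent.S52.B.Interfaces
import Fermat.Agent.S52.H890.Lift
import Fermat.Agent.S52.H170.Five
import Fermat.Agent.S52.B.B1.H170.HomTate
import Fermat.Agent.S52.B.B1.H170.Family

set_option autoImplicit false
set_option linter.unusedSimpArgs false

namespace Fermat.Agent.S52.B.B1.H170

open Polynomial WeierstrassCurve
open Fermat.Agent.S52.Fam Fermat.Agent.S52.B Fermat.Agent.S52.H170
open Fermat.Agent.S52.H890 (H5 T5)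
open Fermat.Agent.Lib.Frob (Qb Pts)

lemma H5_eq_C4hom {R : Type*} [CommRing R] (x z : R) : H5 x z = C4hom x z := by
  simp only [H5, C4hom]

lemma T5_eq_C6hom {R : Type*} [CommRing R] (x z : R) : T5 x z = C6hom x z := by
  simp only [T5, C6hom]

lemma H5_one {R : Type*} [CommRing R] (c : R) : H5 c 1 = tc4 c := by
  simp only [H5, tc4]; ring

lemma T5_one {R : Type*} [CommRing R] (c : R) : T5 c 1 = tc6 c := by
  simp only [T5, tc6]; ring

/-- the Tate numerator section of the line family. -/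
noncomputable def Nf (M n : Qb) (c u : Qb) : Qb[X] :=
  C c * q5h (C c) (C u ^ 2 * mP M) (nP n)

/-- the Tate denominator section of the line family. -/
noncomputable def Df (M n : Qb) (c u : Qb) : Qb[X] :=
  q5h' (C c) (C u ^ 2 * mP M) (nP n)

lemma Nf_eval_zero (M n c u : Qb) : (Nf M n c u).eval 0 = c := by
  have := map_q5h (Polynomial.evalRingHom (0 : Qb)) (C c) (C u ^ 2 * mP M) (nP n)
  simp only [Polynomial.coe_evalRingHom] at this
  rw [Nf, Polynomial.eval_mul, this]
  simp [q5h_zero_one]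

lemma Df_eval_zero (M n c u : Qb) : (Df M n c u).eval 0 = 1 := by
  have := map_q5h' (Polynomial.evalRingHom (0 : Qb)) (C c) (C u ^ 2 * mP M) (nP n)
  simp only [Polynomial.coe_evalRingHom] at this
  rw [Df, this]
  simp [q5h'_zero_one]

section

variable (d : LineData)

lemma famQb_c₄ : (famQb d.fam).c₄ =
    C4h (C (algebraMap ℚ Qb d.c₄)) (C (algebraMap ℚ Qb d.c₆)) (mP (algebraMap ℚ Qb d.M))
      (nP (algebraMap ℚ Qb d.n)) := by
  rw [famQb, WeierstrassCurve.map_c₄, LineData.fam_c₄, LineData.c4P, map_C4h]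
  simp only [Polynomial.coe_mapRingHom, Polynomial.map_C, map_mP, map_nP]

lemma famQb_c₆ : (famQb d.fam).c₆ =
    C6h (C (algebraMap ℚ Qb d.c₄)) (C (algebraMap ℚ Qb d.c₆)) (mP (algebraMap ℚ Qb d.M))
      (nP (algebraMap ℚ Qb d.n)) := by
  rw [famQb, WeierstrassCurve.map_c₆, LineData.fam_c₆, LineData.c6P, map_C6h]
  simp only [Polynomial.coe_mapRingHom, Polynomial.map_C, map_mP, map_nP]

lemma fibre_zero_c₄ :
    ((famQb d.fam).map (Polynomial.evalRingHom (0 : Qb))).c₄ = algebraMap ℚ Qb d.c₄ := by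
  rw [WeierstrassCurve.map_c₄, famQb_c₄, map_C4h]
  simp only [Polynomial.coe_evalRingHom, Polynomial.eval_C, mP_eval_zero, nP_eval_zero,
    C4h_zero_left]
  ring

lemma fibre_zero_c₆ :
    ((famQb d.fam).map (Polynomial.evalRingHom (0 : Qb))).c₆ = algebraMap ℚ Qb d.c₆ := by
  rw [WeierstrassCurve.map_c₆, famQb_c₆, map_C6h]
  simp only [Polynomial.coe_evalRingHom, Polynomial.eval_C, mP_eval_zero, nP_eval_zero,
    C6h_zero_left]
  ring

/-- the family identities in the shape consumed by `H890.exists_lift_of_identities`. -/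
lemma family_identities (c u : Qb)
    (e4 : ((famQb d.fam).map (Polynomial.evalRingHom (0 : Qb))).c₄ = u ^ 4 * H5 c 1)
    (e6 : ((famQb d.fam).map (Polynomial.evalRingHom (0 : Qb))).c₆ = u ^ 6 * T5 c 1) :
    (famQb d.fam).c₄ = C (u ^ 4) * H5 (Nf (algebraMap ℚ Qb d.M) (algebraMap ℚ Qb d.n) c u)
        (Df (algebraMap ℚ Qb d.M) (algebraMap ℚ Qb d.n) c u) ∧
      (famQb d.fam).c₆ = C (u ^ 6) * T5 (Nf (algebraMap ℚ Qb d.M) (algebraMap ℚ Qb d.n) c u)
        (Df (algebraMap ℚ Qb d.M) (algebraMap ℚ Qb d.n) c u) := by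
  rw [fibre_zero_c₄, H5_one] at e4
  rw [fibre_zero_c₆, T5_one] at e6
  have hν : nP (algebraMap ℚ Qb d.n) ≠ 0 := nP_ne_zero _
  have h4 : (C (algebraMap ℚ Qb d.c₄) : Qb[X]) = C u ^ 4 * tc4 (C c) := by
    rw [e4, C_mul, C_pow, map_tc4]
  have h6 : (C (algebraMap ℚ Qb d.c₆) : Qb[X]) = C u ^ 6 * tc6 (C c) := by
    rw [e6, C_mul, C_pow, map_tc6]
  constructor
  · rw [famQb_c₄, h4, h6, hI1_domain _ _ _ hν, H5_eq_C4hom, C_pow]
    rfl
  · rw [famQb_c₆, h4, h6, hI2_domain _ _ _ hν, T5_eq_C6hom, C_pow]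
    rfl

end

/-- **5-torsion lifts for the line family.** -/
theorem hasTorsionLifts_lineData (d : LineData) :
    @HasTorsionLifts Qb _ _ (Classical.decEq _) (famQb d.fam) (algebraMap ℚ Qb 0) 5 := by
  letI : DecidableEq (RatFunc Qb) := Classical.decEq _
  have h0 : algebraMap ℚ Qb 0 = 0 := map_zero _
  rw [h0]
  intro x y h h5
  have h2 : (2 : Qb) ≠ 0 := two_ne_zero
  have h3 : (3 : Qb) ≠ 0 := three_ne_zero
  obtain ⟨px, py, hx, hy, H, H5⟩ :=
    Fermat.Agent.S52.H890.exists_lift_of_identities h2 h3 (famQb d.fam) (0 : Qb)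
      (Nf (algebraMap ℚ Qb d.M) (algebraMap ℚ Qb d.n))
      (Df (algebraMap ℚ Qb d.M) (algebraMap ℚ Qb d.n))
      (fun c u => Nf_eval_zero _ _ c u) (fun c u => Df_eval_zero _ _ c u)
      (fun c u e4 e6 => family_identities d c u e4 e6) h h5
  refine ⟨algebraMap Qb[X] (RatFunc Qb) px, algebraMap Qb[X] (RatFunc Qb) py, H, H5,
    regAt_algebraMap 0 px, ?_, ?_⟩
  · rw [valAt_algebraMap]; exact hx
  · rw [valAt_algebraMap]; exact hy

/-- **Piece B1.** -/
theorem torsionMap : TorsionMap := by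
  intro W W' M n p₀ hΔ hΔ' _ _ _ _ _ _ _ hc4 hc6
  exact fiveCongruent_of_family_rat W W' hΔ hΔ' (lineData W W' M n).fam 0 1
    (lineData_fibre_zero W W' M n) (lineData_fibre_one W W' M n hc4 hc6)
    (hasTorsionLifts_lineData _)

end Fermat.Agent.S52.B.B1.H170
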