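/-
S52 / piece B1 (helper170): the CORE form of `torsionMap`, without the auxiliary hypotheses of the
frozen interface: any two integral models `W`, `W'` (nonzero discriminants) with
`c₄(W') = C4h c₄(W) c₆(W) M n`, `c₆(W') = C6h c₄(W) c₆(W) M n` (ANY integers `M`, `n`) are
`FiveCongruent`.
-/
import Fermat.Agent.S52.B.B1.H170.Main

set_option autoImplicit false

namespace Fermat.Agent.S52.B.B1.H170

open Fermat.Agent.S52.B Fermat.Agent.S52.H170

/-- **Piece B1, core form.** -/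
theorem fiveCongruent_of_c₄_c₆ (W W' : WeierstrassCurve ℤ) (hΔ : W.Δ ≠ 0) (hΔ' : W'.Δ ≠ 0)
    (M n : ℤ) (hc4 : W'.c₄ = C4h W.c₄ W.c₆ M n) (hc6 : W'.c₆ = C6h W.c₄ W.c₆ M n) :
    Fermat.Agent.S52.FiveCongruent W W' :=
  fiveCongruent_of_family_rat W W' hΔ hΔ' (lineData W W' M n).fam 0 1
    (lineData_fibre_zero W W' M n) (lineData_fibre_one W W' M n hc4 hc6)
    (hasTorsionLifts_lineData _)

end Fermat.Agent.S52.B.B1.H170
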